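import Mathlib

set_option autoImplicit false

open NumberField Filter Topology
open scoped nonZeroDivisors

namespace Fermat.Agent.S14.CZ

variable (K : Type*) [Field K] [NumberField K]

/-- the Dedekind zeta function at a real argument, as a sum over the nonzero ideals -/
noncomputable def idealZeta (s : ℝ) : ℝ :=
  ∑' I : (Ideal (𝓞 K))⁰, (Ideal.absNorm (I : Ideal (𝓞 K)) : ℝ) ^ (-s)

theorem Dedekind_tendsto_sum_div :
    Tendsto (fun n : ℕ => (∑ k ∈ Finset.Icc 1 n,
      (Nat.card {I : Ideal (𝓞 K) // Ideal.absNorm I = k} : ℝ)) / (n : ℝ)) atTop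
      (𝓝 (dedekindZeta_residue K)) := by
  refine ((Ideal.tendsto_norm_le_div_atTop₀ K).comp tendsto_natCast_atTop_atTop).congr fun n ↦ ?_
  simp only [Function.comp_apply, Nat.cast_le, ← Nat.cast_sum]
  congr
  rw [← add_left_inj 1, ← Ideal.card_norm_le_eq_card_norm_le_add_one,
    show Finset.Icc 1 n = Finset.Ioc 0 n from Finset.Icc_succ_left_eq_Ioc _ _,
    show 1 = Nat.card {I : Ideal (𝓞 K) // Ideal.absNorm I = 0} by simp [Ideal.absNorm_eq_zero_iff],
    Finset.sum_Ioc_add_eq_sum_Icc (n.zero_le),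
    ← Finset.card_preimage_eq_sum_card_image_eq
      (fun k _ ↦ Ideal.finite_setOfPred_absNorm_eq k)]
  simp [Set.coe_eq_subtype]

theorem Dedekind_lseriesSummable {s : ℝ} (hs : 1 < s) :
    LSeriesSummable (fun n => (Nat.card {I : Ideal (𝓞 K) // Ideal.absNorm I = n} : ℂ)) (s : ℂ) := by
  have h := LSeriesSummable_of_sum_norm_bigO_and_nonneg
    (f := fun n => (Nat.card {I : Ideal (𝓞 K) // Ideal.absNorm I = n} : ℝ)) (r := 1) (s := (s : ℂ))
    (Asymptotics.isBigO_atTop_natCast_rpow_of_tendsto_div_rpow (a := dedekindZeta_residue K)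
      (by simpa using Dedekind_tendsto_sum_div K))
    (fun _ => Nat.cast_nonneg _) zero_le_one (by simpa using hs)
  simpa using h

/-- The fibre of the norm over `n`, among nonzero ideals. -/
abbrev Dedekind_fibre (n : ℕ) : Type _ :=
  {I : (Ideal (𝓞 K))⁰ // Ideal.absNorm (I : Ideal (𝓞 K)) = n}

instance Dedekind_finite_fibre (n : ℕ) : Finite (Dedekind_fibre K n) := by
  have h : Finite {I : Ideal (𝓞 K) // Ideal.absNorm I = n} :=
    (Ideal.finite_setOfPred_absNorm_eq n)
  refine Finite.of_injective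
    (fun I : Dedekind_fibre K n => (⟨I.1.1, I.2⟩ : {I : Ideal (𝓞 K) // Ideal.absNorm I = n})) ?_
  intro I J hIJ
  apply Subtype.ext
  apply Subtype.ext
  exact congrArg (fun x : {I : Ideal (𝓞 K) // Ideal.absNorm I = n} => x.1) hIJ

theorem Dedekind_card_fibre_zero : Nat.card (Dedekind_fibre K 0) = 0 := by
  have : IsEmpty (Dedekind_fibre K 0) := by
    constructor
    rintro ⟨⟨I, hI⟩, h⟩
    exact (Ideal.absNorm_ne_zero_iff_mem_nonZeroDivisors.mpr hI) h
  simp

theorem Dedekind_card_fibre {n : ℕ} (hn : n ≠ 0) :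
    Nat.card (Dedekind_fibre K n) = Nat.card {I : Ideal (𝓞 K) // Ideal.absNorm I = n} := by
  refine Nat.card_congr
    { toFun := fun I => ⟨I.1.1, I.2⟩
      invFun := fun I => ⟨⟨I.1, Ideal.absNorm_ne_zero_iff_mem_nonZeroDivisors.mp
        (by rw [I.2]; exact hn)⟩, I.2⟩
      left_inv := fun I => rfl
      right_inv := fun I => rfl }

theorem Dedekind_term_eq (s : ℝ) (n : ℕ) :
    LSeries.term (fun n => (Nat.card {I : Ideal (𝓞 K) // Ideal.absNorm I = n} : ℂ)) (s : ℂ) n =
      (((Nat.card (Dedekind_fibre K n) : ℝ) * (n : ℝ) ^ (-s) : ℝ) : ℂ) := by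
  rcases eq_or_ne n 0 with rfl | hn
  · rw [Dedekind_card_fibre_zero]; simp
  · rw [LSeries.term_of_ne_zero hn, Dedekind_card_fibre K hn, Real.rpow_neg (Nat.cast_nonneg n)]
    push_cast
    rw [Complex.ofReal_cpow (Nat.cast_nonneg n)]
    simp [div_eq_mul_inv]

theorem Dedekind_summable_nat {s : ℝ} (hs : 1 < s) :
    Summable fun n : ℕ => (Nat.card (Dedekind_fibre K n) : ℝ) * (n : ℝ) ^ (-s) := by
  have h := Dedekind_lseriesSummable K hs
  unfold LSeriesSummable at h
  rw [funext (Dedekind_term_eq K s)] at h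
  exact Complex.summable_ofReal.mp h

theorem Dedekind_tsum_fibre (s : ℝ) (n : ℕ) :
    ∑' I : Dedekind_fibre K n, (Ideal.absNorm (I.1 : Ideal (𝓞 K)) : ℝ) ^ (-s) =
      (Nat.card (Dedekind_fibre K n) : ℝ) * (n : ℝ) ^ (-s) := by
  have h1 : ∀ I : Dedekind_fibre K n,
      (Ideal.absNorm (I.1 : Ideal (𝓞 K)) : ℝ) ^ (-s) = (n : ℝ) ^ (-s) := fun I => by rw [I.2]
  rw [tsum_congr h1, tsum_const, nsmul_eq_mul]

theorem Dedekind_summable_sigma {s : ℝ} (hs : 1 < s) :
    Summable fun x : (Σ n : ℕ, Dedekind_fibre K n) =>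
      (Ideal.absNorm (x.2.1 : Ideal (𝓞 K)) : ℝ) ^ (-s) := by
  rw [summable_sigma_of_nonneg (fun x => Real.rpow_nonneg (Nat.cast_nonneg _) _)]
  refine ⟨fun n => Summable.of_finite, ?_⟩
  simp only [Dedekind_tsum_fibre]
  exact Dedekind_summable_nat K hs

theorem summable_idealZeta {s : ℝ} (hs : 1 < s) :
    Summable fun I : (Ideal (𝓞 K))⁰ => (Ideal.absNorm (I : Ideal (𝓞 K)) : ℝ) ^ (-s) := by
  rw [← (Equiv.sigmaFiberEquiv
    (fun I : (Ideal (𝓞 K))⁰ => Ideal.absNorm (I : Ideal (𝓞 K)))).summable_iff]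
  exact Dedekind_summable_sigma K hs

theorem Dedekind_idealZeta_eq_tsum {s : ℝ} (hs : 1 < s) :
    idealZeta K s = ∑' n : ℕ, (Nat.card (Dedekind_fibre K n) : ℝ) * (n : ℝ) ^ (-s) := by
  unfold idealZeta
  rw [← (Equiv.sigmaFiberEquiv
    (fun I : (Ideal (𝓞 K))⁰ => Ideal.absNorm (I : Ideal (𝓞 K)))).tsum_eq]
  have h := (Dedekind_summable_sigma K hs).tsum_sigma' (fun n => Summable.of_finite)
  refine h.trans ?_
  simp only [Dedekind_tsum_fibre]

theorem idealZeta_eq_dedekindZeta {s : ℝ} (hs : 1 < s) :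
    ((idealZeta K s : ℝ) : ℂ) = dedekindZeta K (s : ℂ) := by
  rw [Dedekind_idealZeta_eq_tsum K hs, Complex.ofReal_tsum]
  unfold dedekindZeta LSeries
  exact tsum_congr fun n => (Dedekind_term_eq K s n).symm

theorem tendsto_sub_one_mul_idealZeta :
    Tendsto (fun s : ℝ => (s - 1) * idealZeta K s) (𝓝[>] 1) (𝓝 (dedekindZeta_residue K)) := by
  rw [← tendsto_ofReal_iff]
  refine (tendsto_sub_one_mul_dedekindZeta_nhdsGT K).congr' ?_
  filter_upwards [self_mem_nhdsWithin] with s hs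
  rw [← idealZeta_eq_dedekindZeta K hs]
  push_cast
  rfl

theorem Dedekind_idealZeta_antitone {s t : ℝ} (hs : 1 < s) (hst : s ≤ t) :
    idealZeta K t ≤ idealZeta K s := by
  unfold idealZeta
  refine Summable.tsum_le_tsum (fun I => ?_) (summable_idealZeta K (hs.trans_le hst))
    (summable_idealZeta K hs)
  have h1 : (1 : ℝ) ≤ (Ideal.absNorm (I : Ideal (𝓞 K)) : ℝ) := by
    have := Ideal.absNorm_ne_zero_iff_mem_nonZeroDivisors.mpr I.2
    exact_mod_cast Nat.one_le_iff_ne_zero.mpr this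
  exact Real.rpow_le_rpow_of_exponent_le h1 (by linarith)

theorem Dedekind_one_le_idealZeta {s : ℝ} (hs : 1 < s) : 1 ≤ idealZeta K s := by
  unfold idealZeta
  have h := (summable_idealZeta K hs).le_tsum (1 : (Ideal (𝓞 K))⁰)
    (fun I _ => Real.rpow_nonneg (Nat.cast_nonneg _) _)
  simpa using h

theorem exists_idealZeta_le :
    ∃ A : ℝ, 0 < A ∧ ∀ s : ℝ, 1 < s → s ≤ 2 → (s - 1) * idealZeta K s ≤ A := by
  have h := (tendsto_sub_one_mul_idealZeta K).eventually
    (eventually_le_nhds (lt_add_one (dedekindZeta_residue K)))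
  rw [eventually_nhdsWithin_iff, Metric.eventually_nhds_iff] at h
  obtain ⟨δ, hδ, h⟩ := h
  have hr := dedekindZeta_residue_pos K
  have hz : 1 ≤ idealZeta K (1 + δ / 2) := Dedekind_one_le_idealZeta K (by linarith)
  refine ⟨dedekindZeta_residue K + 1 + idealZeta K (1 + δ / 2), by positivity, fun s hs1 hs2 => ?_⟩
  by_cases hsd : s < 1 + δ
  · have := h (y := s) (by rw [Real.dist_eq, abs_lt]; constructor <;> linarith) hs1
    linarith
  · have h1 : idealZeta K s ≤ idealZeta K (1 + δ / 2) :=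
      Dedekind_idealZeta_antitone K (by linarith) (by linarith)
    have h2 : (s - 1) * idealZeta K s ≤ 1 * idealZeta K (1 + δ / 2) := by
      apply mul_le_mul (by linarith) h1 (by linarith [Dedekind_one_le_idealZeta K hs1]) (by norm_num)
    linarith

theorem exists_le_idealZeta :
    ∃ c : ℝ, 0 < c ∧ ∀ s : ℝ, 1 < s → s ≤ 2 → c ≤ (s - 1) * idealZeta K s := by
  have hr := dedekindZeta_residue_pos K
  have h := (tendsto_sub_one_mul_idealZeta K).eventually
    (eventually_ge_nhds (half_lt_self hr))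
  rw [eventually_nhdsWithin_iff, Metric.eventually_nhds_iff] at h
  obtain ⟨δ, hδ, h⟩ := h
  refine ⟨min (dedekindZeta_residue K / 2) δ, by positivity, fun s hs1 hs2 => ?_⟩
  by_cases hsd : s < 1 + δ
  · have := h (y := s) (by rw [Real.dist_eq, abs_lt]; constructor <;> linarith) hs1
    exact (min_le_left _ _).trans this
  · have h1 := Dedekind_one_le_idealZeta K hs1
    have h2 : δ * 1 ≤ (s - 1) * idealZeta K s := by
      apply mul_le_mul (by linarith) h1 (by norm_num) (by linarith)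
    exact (min_le_right _ _).trans (by linarith)

end Fermat.Agent.S14.CZ
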