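import Mathlib

set_option autoImplicit false

namespace Fermat.Agent.S14.CZ

variable {ι : Type*} [Fintype ι]

/-- abstract properties of the weight, as a function of the vector of logarithms -/
structure IsWeight (m : ι → ℕ) (H : (ι → ℝ) → ℝ) (L M : ℝ) : Prop where
  nonneg : ∀ l, 0 ≤ H l
  le_one : ∀ l, H l ≤ 1
  lip : ∀ l l', |H l - H l'| ≤ L * ‖l - l'‖
  supp : ∀ l, H l ≠ 0 → ∀ i, |l i - (∑ j, (m j : ℝ) * l j) / (∑ j, (m j : ℝ))| ≤ M

/-- `G_s(v) = N(v)^{-s} H(log v)` -/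
noncomputable def Gfun (m : ι → ℕ) (H : (ι → ℝ) → ℝ) (s : ℝ) (v : ι → ℝ) : ℝ :=
  (∏ i, v i ^ m i) ^ (-s) * H (fun i => Real.log (v i))

variable {m : ι → ℕ} {H : (ι → ℝ) → ℝ} {L M : ℝ}

theorem Gfun_nonneg (hH : IsWeight m H L M) (s : ℝ) (v : ι → ℝ) (hv : ∀ i, 0 ≤ v i) :
    0 ≤ Gfun m H s v := by
  unfold Gfun
  exact mul_nonneg (Real.rpow_nonneg (Finset.prod_nonneg fun i _ => pow_nonneg (hv i) _) _)
    (hH.nonneg _)

private theorem est_pos_of_ne_zero (hm : ∀ i, 1 ≤ m i) {s : ℝ} (hs : 1 ≤ s) {v : ι → ℝ}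
    (hv : ∀ i, 0 ≤ v i) (h : Gfun m H s v ≠ 0) : ∀ i, 0 < v i := by
  intro i
  rcases (hv i).lt_or_eq with h1 | h1
  · exact h1
  · exfalso
    apply h
    unfold Gfun
    have h0 : ∏ j, v j ^ m j = 0 := by
      apply Finset.prod_eq_zero (Finset.mem_univ i)
      rw [← h1]
      exact zero_pow (by have := hm i; omega)
    have hs0 : -s ≠ 0 := by intro h0; linarith
    rw [h0, Real.zero_rpow hs0, zero_mul]

private theorem est_lower_of_ne_zero (hm : ∀ i, 1 ≤ m i) (hH : IsWeight m H L M)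
    {s : ℝ} (hs : 1 ≤ s) {v : ι → ℝ} (hv : ∀ i, 0 ≤ v i) (h : Gfun m H s v ≠ 0) :
    ∀ i, Real.exp (-(2 * |M|)) * ‖v‖ ≤ v i := by
  have hpos := est_pos_of_ne_zero hm hs hv h
  have hH0 : H (fun i => Real.log (v i)) ≠ 0 := by
    intro h0; apply h; unfold Gfun; rw [h0, mul_zero]
  have hsupp := hH.supp _ hH0
  intro i
  have key : ‖v‖ ≤ Real.exp (2 * |M|) * v i := by
    rw [pi_norm_le_iff_of_nonneg (mul_nonneg (Real.exp_pos _).le (hv i))]
    intro j
    rw [Real.norm_of_nonneg (hv j)]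
    have h1 := abs_le.mp (hsupp i)
    have h2 := abs_le.mp (hsupp j)
    have hM := le_abs_self M
    have h3 : Real.log (v j) ≤ 2 * |M| + Real.log (v i) := by linarith [h1.1, h2.2]
    calc v j = Real.exp (Real.log (v j)) := (Real.exp_log (hpos j)).symm
      _ ≤ Real.exp (2 * |M| + Real.log (v i)) := Real.exp_le_exp.mpr h3
      _ = Real.exp (2 * |M|) * v i := by rw [Real.exp_add, Real.exp_log (hpos i)]
  rw [Real.exp_neg, inv_mul_le_iff₀ (Real.exp_pos _)]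
  exact key

private theorem est_cst_le_one (M : ℝ) : Real.exp (-(2 * |M|)) ≤ 1 := by
  rw [Real.exp_le_one_iff]
  have := abs_nonneg M
  linarith

/-- decay -/
theorem Gfun_le [Nonempty ι] (hm : ∀ i, 1 ≤ m i) (hH : IsWeight m H L M) :
    ∃ C : ℝ, 0 ≤ C ∧ ∀ s : ℝ, 1 ≤ s → s ≤ 2 → ∀ v : ι → ℝ, (∀ i, 0 ≤ v i) →
      Gfun m H s v ≤ C * ‖v‖ ^ (-((∑ j, m j : ℕ) : ℝ) * s) := by
  set n : ℕ := ∑ j, m j with hn
  set c := Real.exp (-(2 * |M|)) with hc
  have hc0 : 0 < c := Real.exp_pos _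
  have hc1 : c ≤ 1 := est_cst_le_one M
  refine ⟨c ^ (-(n : ℝ) * 2), by positivity, ?_⟩
  intro s hs1 hs2 v hv
  by_cases h : Gfun m H s v = 0
  · rw [h]; positivity
  have hpos := est_pos_of_ne_zero hm hs1 hv h
  have hlow := est_lower_of_ne_zero hm hH hs1 hv h
  have hN : (c * ‖v‖) ^ n ≤ ∏ i, v i ^ m i := by
    rw [hn, ← Finset.prod_pow_eq_pow_sum]
    exact Finset.prod_le_prod (fun i _ => by positivity)
      (fun i _ => pow_le_pow_left₀ (by positivity) (hlow i) _)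
  have hnorm : 0 < ‖v‖ := by
    obtain ⟨i⟩ := ‹Nonempty ι›
    calc 0 < v i := hpos i
      _ ≤ ‖v i‖ := le_abs_self _
      _ ≤ ‖v‖ := norm_le_pi_norm v i
  unfold Gfun
  calc (∏ i, v i ^ m i) ^ (-s) * H (fun i => Real.log (v i))
      ≤ (∏ i, v i ^ m i) ^ (-s) * 1 :=
        mul_le_mul_of_nonneg_left (hH.le_one _)
          (Real.rpow_nonneg (Finset.prod_nonneg fun i _ => pow_nonneg (hv i) _) _)
    _ = (∏ i, v i ^ m i) ^ (-s) := mul_one _
    _ ≤ ((c * ‖v‖) ^ n) ^ (-s) :=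
        Real.rpow_le_rpow_of_nonpos (by positivity) hN (by linarith)
    _ = c ^ (-(n : ℝ) * s) * ‖v‖ ^ (-(n : ℝ) * s) := by
        rw [← Real.rpow_natCast, ← Real.rpow_mul (by positivity),
          Real.mul_rpow hc0.le hnorm.le]
        congr 2 <;> ring
    _ ≤ c ^ (-(n : ℝ) * 2) * ‖v‖ ^ (-(n : ℝ) * s) := by
        apply mul_le_mul_of_nonneg_right _ (by positivity)
        apply Real.rpow_le_rpow_of_exponent_ge hc0 hc1
        have : (0 : ℝ) ≤ n := Nat.cast_nonneg n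
        nlinarith

private theorem est_log_sub_le {ρ x y δ : ℝ} (hρ : 0 < ρ) (hx : ρ ≤ x) (hy : ρ ≤ y)
    (h : |x - y| ≤ δ) : Real.log x - Real.log y ≤ δ / ρ := by
  have hx0 : 0 < x := lt_of_lt_of_le hρ hx
  have hy0 : 0 < y := lt_of_lt_of_le hρ hy
  have h1 : Real.log x - Real.log y = Real.log (x / y) :=
    (Real.log_div hx0.ne' hy0.ne').symm
  have h2 : Real.log (x / y) ≤ x / y - 1 := Real.log_le_sub_one_of_pos (div_pos hx0 hy0)
  have h3 : x / y - 1 = (x - y) / y := by field_simp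
  have h4 : (x - y) / y ≤ |x - y| / y :=
    div_le_div_of_nonneg_right (le_abs_self _) hy0.le
  have h5 : |x - y| / y ≤ |x - y| / ρ :=
    div_le_div_of_nonneg_left (abs_nonneg _) hρ hy
  have h6 : |x - y| / ρ ≤ δ / ρ := div_le_div_of_nonneg_right h hρ.le
  linarith

private theorem est_abs_log_sub_le {ρ x y δ : ℝ} (hρ : 0 < ρ) (hx : ρ ≤ x) (hy : ρ ≤ y)
    (h : |x - y| ≤ δ) : |Real.log x - Real.log y| ≤ δ / ρ := by
  rw [abs_le]
  constructor
  · have h' : |y - x| ≤ δ := by rwa [abs_sub_comm]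
    have := est_log_sub_le hρ hy hx h'
    linarith
  · exact est_log_sub_le hρ hx hy h

private theorem est_exp_sub_le {x y B : ℝ} (hxy : x ≤ y) (hy : Real.exp y ≤ B) :
    |Real.exp x - Real.exp y| ≤ |x - y| * B := by
  have h1 : Real.exp x ≤ Real.exp y := Real.exp_le_exp.mpr hxy
  rw [abs_sub_comm, abs_of_nonneg (by linarith), abs_sub_comm, abs_of_nonneg (by linarith)]
  have h2 : x - y + 1 ≤ Real.exp (x - y) := Real.add_one_le_exp _
  have h3 : Real.exp x = Real.exp y * Real.exp (x - y) := by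
    rw [← Real.exp_add]; congr 1; ring
  have h4 : Real.exp y - Real.exp x ≤ Real.exp y * (y - x) := by
    rw [h3]
    have := mul_le_mul_of_nonneg_left h2 (Real.exp_pos y).le
    linarith
  calc Real.exp y - Real.exp x ≤ Real.exp y * (y - x) := h4
    _ ≤ B * (y - x) := mul_le_mul_of_nonneg_right hy (by linarith)
    _ = (y - x) * B := mul_comm _ _

private theorem est_abs_exp_sub_le {x y B : ℝ} (hx : Real.exp x ≤ B) (hy : Real.exp y ≤ B) :
    |Real.exp x - Real.exp y| ≤ |x - y| * B := by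
  rcases le_total x y with h | h
  · exact est_exp_sub_le h hy
  · rw [abs_sub_comm, abs_sub_comm x y]
    exact est_exp_sub_le h hx

private theorem est_prod_rpow_eq {v : ι → ℝ} (hpos : ∀ i, 0 < v i) (s : ℝ) :
    (∏ i, v i ^ m i) ^ (-s) = Real.exp (-s * ∑ i, (m i : ℝ) * Real.log (v i)) := by
  have hp : 0 < ∏ i, v i ^ m i := Finset.prod_pos fun i _ => pow_pos (hpos i) _
  rw [Real.rpow_def_of_pos hp, Real.log_prod (fun i _ => (pow_pos (hpos i) _).ne')]
  simp only [Real.log_pow]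
  rw [mul_comm]

private theorem est_aux (hH : IsWeight m H L M) {δ ρ s : ℝ} (hδ : 0 ≤ δ)
    (hs1 : 1 ≤ s) (hs2 : s ≤ 2) (hρ : 1 ≤ ρ) {v v' : ι → ℝ}
    (hv : ∀ i, ρ ≤ v i) (hv' : ∀ i, ρ ≤ v' i) (hd : ∀ i, |v' i - v i| ≤ δ) :
    |Gfun m H s v' - Gfun m H s v| ≤
      (2 * ((∑ j, m j : ℕ) : ℝ) + |L|) * δ * (ρ ^ ((∑ j, m j) + 1))⁻¹ := by
  set n : ℕ := ∑ j, m j with hn
  have hρ0 : 0 < ρ := by linarith
  have hpos : ∀ i, 0 < v i := fun i => lt_of_lt_of_le hρ0 (hv i)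
  have hpos' : ∀ i, 0 < v' i := fun i => lt_of_lt_of_le hρ0 (hv' i)
  set l : ι → ℝ := fun i => Real.log (v i) with hl
  set l' : ι → ℝ := fun i => Real.log (v' i) with hl'
  set A : ℝ := ∑ i, (m i : ℝ) * l i with hA
  set A' : ℝ := ∑ i, (m i : ℝ) * l' i with hA'
  have hdl : ∀ i, |l' i - l i| ≤ δ / ρ := fun i =>
    est_abs_log_sub_le hρ0 (hv' i) (hv i) (hd i)
  have hδρ : 0 ≤ δ / ρ := div_nonneg hδ hρ0.le
  have hnorm : ‖l' - l‖ ≤ δ / ρ := by
    rw [pi_norm_le_iff_of_nonneg hδρ]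
    intro i
    exact hdl i
  have hncast : (n : ℝ) = ∑ i, (m i : ℝ) := by rw [hn]; push_cast; rfl
  have hAA : |A' - A| ≤ n * (δ / ρ) := by
    rw [hA, hA', ← Finset.sum_sub_distrib, hncast, Finset.sum_mul]
    refine (Finset.abs_sum_le_sum_abs _ _).trans (Finset.sum_le_sum fun i _ => ?_)
    rw [← mul_sub, abs_mul, abs_of_nonneg (Nat.cast_nonneg _)]
    exact mul_le_mul_of_nonneg_left (hdl i) (Nat.cast_nonneg _)
  have hlogρ : 0 ≤ Real.log ρ := Real.log_nonneg hρ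
  have hAlow : ∀ w : ι → ℝ, (∀ i, ρ ≤ w i) →
      n * Real.log ρ ≤ ∑ i, (m i : ℝ) * Real.log (w i) := by
    intro w hw
    rw [hncast, Finset.sum_mul]
    exact Finset.sum_le_sum fun i _ =>
      mul_le_mul_of_nonneg_left (Real.log_le_log hρ0 (hw i)) (Nat.cast_nonneg _)
  set B : ℝ := (ρ ^ n)⁻¹ with hB
  have hB0 : 0 ≤ B := by positivity
  have hexpB : ∀ a : ℝ, n * Real.log ρ ≤ a → Real.exp (-s * a) ≤ B := by
    intro a ha
    have ha0 : 0 ≤ a := le_trans (mul_nonneg (Nat.cast_nonneg _) hlogρ) ha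
    have h1 : -s * a ≤ -(n * Real.log ρ) := by nlinarith
    calc Real.exp (-s * a) ≤ Real.exp (-(n * Real.log ρ)) := Real.exp_le_exp.mpr h1
      _ = B := by rw [Real.exp_neg, Real.exp_nat_mul, Real.exp_log hρ0]
  have he : (∏ i, v i ^ m i) ^ (-s) = Real.exp (-s * A) := est_prod_rpow_eq hpos s
  have he' : (∏ i, v' i ^ m i) ^ (-s) = Real.exp (-s * A') := est_prod_rpow_eq hpos' s
  have hEB : Real.exp (-s * A) ≤ B := hexpB A (hAlow v hv)
  have hEB' : Real.exp (-s * A') ≤ B := hexpB A' (hAlow v' hv')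
  have hEE : |Real.exp (-s * A') - Real.exp (-s * A)| ≤ 2 * (n * (δ / ρ)) * B := by
    refine (est_abs_exp_sub_le hEB' hEB).trans (mul_le_mul_of_nonneg_right ?_ hB0)
    have : -s * A' - -s * A = -s * (A' - A) := by ring
    rw [this, abs_mul, abs_neg, abs_of_nonneg (by linarith : (0 : ℝ) ≤ s)]
    exact mul_le_mul hs2 hAA (abs_nonneg _) (by norm_num)
  have hHH : |H l' - H l| ≤ |L| * (δ / ρ) := by
    refine (hH.lip l' l).trans ?_
    calc L * ‖l' - l‖ ≤ |L| * ‖l' - l‖ :=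
          mul_le_mul_of_nonneg_right (le_abs_self L) (norm_nonneg _)
      _ ≤ |L| * (δ / ρ) := mul_le_mul_of_nonneg_left hnorm (abs_nonneg _)
  unfold Gfun
  rw [he, he']
  have hsplit : Real.exp (-s * A') * H l' - Real.exp (-s * A) * H l =
      (Real.exp (-s * A') - Real.exp (-s * A)) * H l' + Real.exp (-s * A) * (H l' - H l) := by
    ring
  have hfin : (2 * (n : ℝ) + |L|) * δ * (ρ ^ (n + 1))⁻¹ =
      2 * (n * (δ / ρ)) * B * 1 + B * (|L| * (δ / ρ)) := by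
    rw [hB, pow_succ]
    field_simp
  rw [hsplit, hfin]
  refine (abs_add_le _ _).trans (add_le_add ?_ ?_)
  · rw [abs_mul]
    refine mul_le_mul hEE ?_ (abs_nonneg _) (by positivity)
    rw [abs_of_nonneg (hH.nonneg _)]
    exact hH.le_one _
  · rw [abs_mul, abs_of_nonneg (Real.exp_pos _).le]
    exact mul_le_mul hEB hHH (abs_nonneg _) hB0

/-- the Lipschitz estimate -/
theorem Gfun_sub_le [Nonempty ι] (hm : ∀ i, 1 ≤ m i) (hH : IsWeight m H L M) (δ : ℝ) (hδ : 0 ≤ δ) :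
    ∃ C R : ℝ, 0 ≤ C ∧ 0 < R ∧ ∀ s : ℝ, 1 ≤ s → s ≤ 2 → ∀ v v' : ι → ℝ,
      (∀ i, 0 ≤ v i) → (∀ i, 0 ≤ v' i) → (∀ i, |v' i - v i| ≤ δ) → R ≤ ‖v‖ →
      |Gfun m H s v' - Gfun m H s v| ≤ C * ‖v‖ ^ (-(((∑ j, m j : ℕ) : ℝ) + 1)) := by
  set n : ℕ := ∑ j, m j with hn
  set c := Real.exp (-(2 * |M|)) with hc
  have hc0 : 0 < c := Real.exp_pos _
  have hc1 : c ≤ 1 := est_cst_le_one M
  refine ⟨(2 * (n : ℝ) + |L|) * δ * ((c / 4) ^ (n + 1))⁻¹, 4 * (δ + 1) / c, by positivity,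
    by positivity, ?_⟩
  intro s hs1 hs2 v v' hv hv' hd hR
  have hR' : 4 * (δ + 1) ≤ c * ‖v‖ := by
    rw [div_le_iff₀ hc0] at hR
    linarith
  have hnorm : 0 < ‖v‖ := by
    by_contra hcon
    have : ‖v‖ = 0 := le_antisymm (not_lt.mp hcon) (norm_nonneg _)
    rw [this] at hR'
    linarith
  set ρ : ℝ := c * ‖v‖ / 4 with hρ
  have hρ1 : δ + 1 ≤ ρ := by rw [hρ]; linarith
  have hrw : (2 * (n : ℝ) + |L|) * δ * ((c / 4) ^ (n + 1))⁻¹ * ‖v‖ ^ (-((n : ℝ) + 1)) =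
      (2 * (n : ℝ) + |L|) * δ * (ρ ^ (n + 1))⁻¹ := by
    have h1 : ((n : ℝ) + 1) = ((n + 1 : ℕ) : ℝ) := by push_cast; rfl
    rw [Real.rpow_neg hnorm.le, h1, Real.rpow_natCast, hρ,
      show c * ‖v‖ / 4 = c / 4 * ‖v‖ by ring, mul_pow, mul_inv]
    ring
  rw [hrw]
  by_cases h : Gfun m H s v = 0
  · by_cases h' : Gfun m H s v' = 0
    · rw [h, h', sub_zero, abs_zero]
      have : 0 < ρ := by linarith
      positivity
    · have hlow := est_lower_of_ne_zero hm hH hs1 hv' h'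
      have hvv : ‖v‖ ≤ ‖v'‖ + δ := by
        have h1 : ‖v - v'‖ ≤ δ := by
          rw [pi_norm_le_iff_of_nonneg hδ]
          intro i
          have := hd i
          rw [abs_sub_comm] at this
          exact this
        have h2 : ‖v‖ ≤ ‖v'‖ + ‖v - v'‖ := by
          have := norm_add_le v' (v - v')
          simpa using this
        linarith
      have hcv : c * ‖v‖ ≤ c * ‖v'‖ + δ := by
        have h1 := mul_le_mul_of_nonneg_left hvv hc0.le
        have h2 : c * δ ≤ δ := by nlinarith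
        linarith
      have hv'ρ : ∀ i, ρ + δ ≤ v' i := by
        intro i
        have := hlow i
        have h4 : c * ‖v‖ = 4 * ρ := by rw [hρ]; ring
        linarith
      refine est_aux hH hδ hs1 hs2 (by linarith) (fun i => ?_) (fun i => ?_) hd
      · have h1 := (abs_le.mp (hd i)).2
        have := hv'ρ i
        linarith
      · have := hv'ρ i
        linarith
  · have hlow := est_lower_of_ne_zero hm hH hs1 hv h
    have hvρ : ∀ i, ρ + δ ≤ v i := by
      intro i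
      have := hlow i
      have h4 : c * ‖v‖ = 4 * ρ := by rw [hρ]; ring
      linarith
    refine est_aux hH hδ hs1 hs2 (by linarith) (fun i => ?_) (fun i => ?_) hd
    · have := hvρ i
      linarith
    · have h1 := (abs_le.mp (hd i)).1
      have := hvρ i
      linarith

end Fermat.Agent.S14.CZ
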