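import Fermat.Agent.S14.CZ.Unfold

set_option autoImplicit false

open NumberField NumberField.InfinitePlace NumberField.Units
open scoped nonZeroDivisors

namespace Fermat.Agent.S14.CZ

variable (K : Type*) [Field K] [NumberField K]

/-- uniform bound for one shift -/
theorem shift_one (t : 𝓞 K) :
    ∃ β : 𝓞 K → ℝ, Summable β ∧ ∀ s : ℝ, 1 < s → s ≤ 2 → ∀ a : 𝓞 K,
      |gK K s (a + t) - gK K s a| ≤ β a := by
  classical
  obtain ⟨L, M, hH⟩ := isWeight_HK K
  have hm : ∀ w : InfinitePlace K, 1 ≤ mult w := fun w => mult_pos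
  set v : 𝓞 K → InfinitePlace K → ℝ := fun a w => w (a : K) with hv
  obtain ⟨C, R, hC, hR, h⟩ := Gfun_sub_le hm hH ‖v t‖ (norm_nonneg _)
  set r : ℝ := -(((∑ j : InfinitePlace K, mult j : ℕ) : ℝ) + 1) with hr
  have hrneg : r < 0 := by
    rw [hr]
    have : (0 : ℝ) ≤ ((∑ j : InfinitePlace K, mult j : ℕ) : ℝ) := Nat.cast_nonneg _
    linarith
  refine ⟨fun a => (C + R ^ (-r)) * ‖v a‖ ^ r + (if a = 0 then 1 else 0), ?_, ?_⟩
  · refine Summable.add (Summable.mul_left _ ?_) ((hasSum_ite_eq (0 : 𝓞 K) (1 : ℝ)).summable)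
    apply summable_norm_rpow
    rw [hr, sum_mult_eq]
    linarith
  · intro s hs hs2 a
    have hle1 : |gK K s (a + t) - gK K s a| ≤ 1 := by
      have h1 := gK_nonneg K s (a + t)
      have h2 := gK_nonneg K s a
      have h3 := gK_le_one K (by linarith : (0 : ℝ) ≤ s) (a + t)
      have h4 := gK_le_one K (by linarith : (0 : ℝ) ≤ s) a
      rw [abs_le]; constructor <;> linarith
    by_cases ha : a = 0
    · have hv0 : ‖v a‖ = 0 := by
        rw [norm_eq_zero]; ext w; simp [hv, ha]
      simp only [hv0, Real.zero_rpow hrneg.ne, mul_zero, zero_add, if_pos ha]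
      exact hle1
    · have hvpos : 0 < ‖v a‖ := by
        rw [norm_pos_iff]
        intro h0
        obtain ⟨w⟩ := (inferInstance : Nonempty (InfinitePlace K))
        have := congrFun h0 w
        simp only [hv, Pi.zero_apply, map_eq_zero] at this
        exact ha (by exact_mod_cast this)
      simp only [if_neg ha, add_zero]
      have hpow : 0 ≤ ‖v a‖ ^ r := Real.rpow_nonneg hvpos.le _
      have hRpow : 0 ≤ R ^ (-r) := Real.rpow_nonneg hR.le _
      rcases le_or_gt R ‖v a‖ with hRa | hRa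
      · have := h s hs.le hs2 (v a) (v (a + t)) (fun w => apply_nonneg w _)
          (fun w => apply_nonneg w _) ?_ hRa
        · calc |gK K s (a + t) - gK K s a| ≤ C * ‖v a‖ ^ r := this
            _ ≤ (C + R ^ (-r)) * ‖v a‖ ^ r := by nlinarith
        · intro w
          have h1 : |w ((a + t : 𝓞 K) : K) - w (a : K)| ≤ w (t : K) := by
            have := w.1.abs_abv_sub_le_abv_sub ((a + t : 𝓞 K) : K) (a : K)
            have h3 : ((a + t : 𝓞 K) : K) - (a : K) = (t : K) := by
              push_cast; ring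
            rw [h3] at this
            exact this
          have h2 : w (t : K) ≤ ‖v t‖ := by
            have := norm_le_pi_norm (v t) w
            rwa [Real.norm_eq_abs, abs_of_nonneg (apply_nonneg w _)] at this
          exact h1.trans h2
      · have h1 : 1 ≤ R ^ (-r) * ‖v a‖ ^ r := by
          rw [Real.rpow_neg hR.le, ← div_eq_inv_mul, one_le_div (Real.rpow_pos_of_pos hR _)]
          exact Real.rpow_le_rpow_of_nonpos hvpos hRa.le hrneg.le
        calc |gK K s (a + t) - gK K s a| ≤ 1 := hle1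
          _ ≤ R ^ (-r) * ‖v a‖ ^ r := h1
          _ ≤ (C + R ^ (-r)) * ‖v a‖ ^ r := by nlinarith

/-- coset decomposition (pure algebra + summability) -/
theorem tsum_eq_sum_cosets (J : Ideal (𝓞 K)) (hJ : J ≠ ⊥) :
    ∃ (n : ℕ) (t : Fin n → 𝓞 K), n = Ideal.absNorm J ∧ ∀ f : 𝓞 K → ℝ, Summable f →
      ∑' a : 𝓞 K, f a = ∑ i, ∑' b : J, f ((b : 𝓞 K) + t i) := by
  classical
  have : Finite (𝓞 K ⧸ J) := Ideal.finiteQuotientOfFreeOfNeBot J hJ
  have : Fintype (𝓞 K ⧸ J) := Fintype.ofFinite _
  let e : (𝓞 K ⧸ J) ≃ Fin (Nat.card (𝓞 K ⧸ J)) := Finite.equivFin _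
  refine ⟨Nat.card (𝓞 K ⧸ J), fun i => Quotient.out (e.symm i), ?_, ?_⟩
  · rw [Ideal.absNorm_apply, Submodule.cardQuot_apply]
  · intro f hf
    let E : ((𝓞 K ⧸ J) × J) ≃ 𝓞 K :=
      { toFun := fun x => (x.2 : 𝓞 K) + Quotient.out x.1
        invFun := fun a => (Ideal.Quotient.mk J a,
          ⟨a - Quotient.out (Ideal.Quotient.mk J a), by
            rw [← Ideal.Quotient.eq]
            exact (Ideal.Quotient.mk_out _).symm⟩)
        left_inv := by
          rintro ⟨q, b⟩
          have hq : Ideal.Quotient.mk J ((b : 𝓞 K) + Quotient.out q) = q := by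
            rw [map_add, Ideal.Quotient.eq_zero_iff_mem.mpr b.2, zero_add]
            exact Ideal.Quotient.mk_out q
          ext
          · exact hq
          · simp only [hq, add_sub_cancel_right]
        right_inv := by
          intro a
          simp }
    rw [← E.tsum_eq f]
    have hs : Summable (fun x => f (E x)) := E.summable_iff.mpr hf
    rw [hs.tsum_prod, tsum_fintype, ← e.symm.sum_comp]
    rfl

/-- SHIFT TRICK -/
theorem shift_bound (J : Ideal (𝓞 K)) (hJ : J ≠ ⊥) :
    ∃ B : ℝ, ∀ s : ℝ, 1 < s → s ≤ 2 →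
      |∑' a : 𝓞 K, gK K s a - (Ideal.absNorm J : ℝ) * ∑' b : J, gK K s b| ≤ B := by
  classical
  obtain ⟨n, t, hn, hdec⟩ := tsum_eq_sum_cosets K J hJ
  choose β hβs hβ using fun i => shift_one K (t i)
  refine ⟨∑ i, ∑' b : J, β i b, ?_⟩
  intro s hs hs2
  have hg := summable_gK K hs hs2
  have hgJ : Summable fun b : J => gK K s b := hg.comp_injective Subtype.val_injective
  have hgt : ∀ i, Summable fun b : J => gK K s ((b : 𝓞 K) + t i) := fun i =>
    hg.comp_injective (i := fun b : J => (b : 𝓞 K) + t i)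
      (fun b b' h => Subtype.ext (add_right_cancel h))
  have h1 : (Ideal.absNorm J : ℝ) * ∑' b : J, gK K s b = ∑ _i : Fin n, ∑' b : J, gK K s b := by
    rw [Finset.sum_const, Finset.card_univ, Fintype.card_fin, nsmul_eq_mul, hn]
  rw [hdec _ hg, h1, ← Finset.sum_sub_distrib]
  refine (Finset.abs_sum_le_sum_abs _ _).trans (Finset.sum_le_sum fun i _ => ?_)
  rw [← (hgt i).tsum_sub hgJ, ← Real.norm_eq_abs]
  refine tsum_of_norm_bounded ((hβs i).comp_injective Subtype.val_injective).hasSum fun b => ?_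
  rw [Real.norm_eq_abs]
  exact hβ i s hs hs2 b

end Fermat.Agent.S14.CZ
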