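import Mathlib

set_option autoImplicit false

namespace Fermat.Agent.S14.CZ

/-- the tent function `max 0 (1 - |t|)` -/
noncomputable def tent (t : ℝ) : ℝ := max 0 (1 - |t|)

lemma tent_nonneg (t : ℝ) : 0 ≤ tent t := le_max_left _ _

lemma tent_le_one (t : ℝ) : tent t ≤ 1 := by
  unfold tent
  exact max_le zero_le_one (by linarith [abs_nonneg t])

lemma tent_eq_zero {t : ℝ} (h : 1 ≤ |t|) : tent t = 0 := by
  unfold tent
  exact max_eq_left (by linarith)

lemma abs_lt_one_of_tent_ne_zero {t : ℝ} (h : tent t ≠ 0) : |t| < 1 := by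
  by_contra hc
  exact h (tent_eq_zero (not_lt.mp hc))

lemma abs_tent_sub_le (a b : ℝ) : |tent a - tent b| ≤ |a - b| := by
  unfold tent
  calc |max 0 (1 - |a|) - max 0 (1 - |b|)| ≤ max |(0 : ℝ) - 0| |(1 - |a|) - (1 - |b|)| :=
        abs_max_sub_max_le_max _ _ _ _
    _ ≤ |a - b| := by
        apply max_le
        · simp
        · have : (1 - |a|) - (1 - |b|) = |b| - |a| := by ring
          rw [this, abs_sub_comm a b]
          exact abs_abs_sub_abs_le_abs_sub b a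

private lemma tent_fract_add (x : ℝ) :
    tent (x + ((-⌊x⌋ : ℤ) : ℝ)) + tent (x + ((-⌊x⌋ - 1 : ℤ) : ℝ)) = 1 := by
  have h0 : 0 ≤ Int.fract x := Int.fract_nonneg x
  have h1 : Int.fract x < 1 := Int.fract_lt_one x
  have e1 : x + ((-⌊x⌋ : ℤ) : ℝ) = Int.fract x := by
    rw [Int.fract]; push_cast; ring
  have e2 : x + ((-⌊x⌋ - 1 : ℤ) : ℝ) = Int.fract x - 1 := by
    rw [Int.fract]; push_cast; ring
  rw [e1, e2]
  unfold tent
  rw [abs_of_nonneg h0, abs_of_nonpos (by linarith), max_eq_right (by linarith),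
    max_eq_right (by linarith)]
  ring

private lemma tent_eq_zero_of_ne (x : ℝ) (e : ℤ) (h1 : e ≠ -⌊x⌋) (h2 : e ≠ -⌊x⌋ - 1) :
    tent (x + (e : ℝ)) = 0 := by
  apply tent_eq_zero
  have h0 : 0 ≤ Int.fract x := Int.fract_nonneg x
  have h1' : Int.fract x < 1 := Int.fract_lt_one x
  have ex : x = Int.fract x + (⌊x⌋ : ℝ) := (Int.fract_add_floor x).symm
  rcases lt_or_gt_of_ne h1 with h | h
  · -- e < -⌊x⌋, and e ≠ -⌊x⌋ - 1, so e + ⌊x⌋ ≤ -2
    have h3 : e + ⌊x⌋ ≤ -2 := by omega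
    have h4 : ((e : ℝ) + (⌊x⌋ : ℝ)) ≤ -2 := by exact_mod_cast h3
    rw [le_abs]
    right
    linarith
  · have h3 : 1 ≤ e + ⌊x⌋ := by omega
    have h4 : (1 : ℝ) ≤ ((e : ℝ) + (⌊x⌋ : ℝ)) := by exact_mod_cast h3
    rw [le_abs]
    left
    linarith

/-- partition of unity -/
theorem hasSum_prod_tent {ι : Type*} [Fintype ι] (t : ι → ℝ) :
    HasSum (fun e : ι → ℤ => ∏ j, tent (t j + e j)) 1 := by
  classical
  set s : Finset (ι → ℤ) :=
    Fintype.piFinset (fun j => ({-⌊t j⌋, -⌊t j⌋ - 1} : Finset ℤ)) with hs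
  have hsum : ∑ e ∈ s, ∏ j, tent (t j + e j) = 1 := by
    rw [hs, ← Finset.prod_univ_sum (fun j => ({-⌊t j⌋, -⌊t j⌋ - 1} : Finset ℤ))
      (fun j (x : ℤ) => tent (t j + (x : ℝ)))]
    apply Finset.prod_eq_one
    intro j _
    rw [Finset.sum_pair (by omega)]
    exact tent_fract_add (t j)
  rw [← hsum]
  apply hasSum_sum_of_ne_finset_zero
  intro e he
  rw [hs, Fintype.mem_piFinset] at he
  push Not at he
  obtain ⟨j, hj⟩ := he
  simp only [Finset.mem_insert, Finset.mem_singleton, not_or] at hj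
  exact Finset.prod_eq_zero (Finset.mem_univ j) (tent_eq_zero_of_ne (t j) (e j) hj.1 hj.2)

theorem abs_prod_sub_prod_le {ι : Type*} [Fintype ι] (a b : ι → ℝ)
    (ha : ∀ j, 0 ≤ a j ∧ a j ≤ 1) (hb : ∀ j, 0 ≤ b j ∧ b j ≤ 1) :
    |∏ j, a j - ∏ j, b j| ≤ ∑ j, |a j - b j| := by
  classical
  have key : ∀ s : Finset ι, |∏ j ∈ s, a j - ∏ j ∈ s, b j| ≤ ∑ j ∈ s, |a j - b j| := by
    intro s
    induction s using Finset.induction_on with
    | empty => simp
    | insert i s hi ih =>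
      rw [Finset.prod_insert hi, Finset.prod_insert hi, Finset.sum_insert hi]
      have hA0 : 0 ≤ ∏ j ∈ s, a j := Finset.prod_nonneg (fun j _ => (ha j).1)
      have hA1 : ∏ j ∈ s, a j ≤ 1 := Finset.prod_le_one (fun j _ => (ha j).1) (fun j _ => (ha j).2)
      have e : a i * ∏ j ∈ s, a j - b i * ∏ j ∈ s, b j =
          (a i - b i) * ∏ j ∈ s, a j + b i * (∏ j ∈ s, a j - ∏ j ∈ s, b j) := by ring
      rw [e]
      calc |(a i - b i) * ∏ j ∈ s, a j + b i * (∏ j ∈ s, a j - ∏ j ∈ s, b j)|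
          ≤ |(a i - b i) * ∏ j ∈ s, a j| + |b i * (∏ j ∈ s, a j - ∏ j ∈ s, b j)| :=
            abs_add_le _ _
        _ = |a i - b i| * ∏ j ∈ s, a j + b i * |∏ j ∈ s, a j - ∏ j ∈ s, b j| := by
            rw [abs_mul, abs_mul, abs_of_nonneg hA0, abs_of_nonneg (hb i).1]
        _ ≤ |a i - b i| * 1 + 1 * |∏ j ∈ s, a j - ∏ j ∈ s, b j| := by
            apply add_le_add
            · exact mul_le_mul_of_nonneg_left hA1 (abs_nonneg _)
            · exact mul_le_mul_of_nonneg_right (hb i).2 (abs_nonneg _)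
        _ ≤ |a i - b i| + ∑ j ∈ s, |a j - b j| := by
            rw [mul_one, one_mul]
            exact add_le_add le_rfl ih
  exact key Finset.univ

end Fermat.Agent.S14.CZ
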