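import Fermat.Agent.S14.CZ.Weight

set_option autoImplicit false

open NumberField NumberField.InfinitePlace NumberField.Units
open scoped nonZeroDivisors

namespace Fermat.Agent.S14.CZ

variable (K : Type*) [Field K] [NumberField K]

/-- the partial zeta function of an ideal class, at a real argument -/
noncomputable def classZeta (C : ClassGroup (𝓞 K)) (s : ℝ) : ℝ :=
  ∑' I : {I : (Ideal (𝓞 K))⁰ // ClassGroup.mk0 I = C}, (Ideal.absNorm (I.1 : Ideal (𝓞 K)) : ℝ) ^ (-s)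

/-- the smoothed summand `|N a|^{-s} W(a)` on `𝓞 K` (it vanishes at `0`) -/
noncomputable def gK (s : ℝ) (a : 𝓞 K) : ℝ :=
  Gfun (fun w : InfinitePlace K => mult w) (HK K) s (fun w => w (a : K))

theorem gK_nonneg (s : ℝ) (a : 𝓞 K) : 0 ≤ gK K s a := by
  obtain ⟨L, M, h⟩ := isWeight_HK K
  exact Gfun_nonneg h s _ (fun w => apply_nonneg _ _)

theorem prod_eq_absNorm (a : 𝓞 K) :
    ∏ w : InfinitePlace K, w (a : K) ^ mult w = (Ideal.absNorm (Ideal.span {a}) : ℝ) := by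
  rw [InfinitePlace.prod_eq_abs_norm, Ideal.absNorm_span_singleton, ← Algebra.coe_norm_int]
  simp [Nat.cast_natAbs]

theorem gK_eq (s : ℝ) (a : 𝓞 K) :
    gK K s a = (Ideal.absNorm (Ideal.span {a}) : ℝ) ^ (-s) * HK K (fun w => Real.log (w (a : K))) := by
  rw [gK, Gfun, prod_eq_absNorm]

theorem gK_le_one {s : ℝ} (hs : 0 ≤ s) (a : 𝓞 K) : gK K s a ≤ 1 := by
  obtain ⟨L, M, h⟩ := isWeight_HK K
  rw [gK_eq]
  refine mul_le_one₀ ?_ (h.nonneg _) (h.le_one _)
  rcases Nat.eq_zero_or_pos (Ideal.absNorm (Ideal.span {a})) with h0 | h0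
  · rw [h0, Nat.cast_zero]
    rcases eq_or_lt_of_le hs with rfl | hs'
    · simp
    · rw [Real.zero_rpow (by linarith)]; exact zero_le_one
  · exact Real.rpow_le_one_of_one_le_of_nonpos (by exact_mod_cast h0) (by linarith)

open scoped Classical in
theorem norm_vec_eq (a : K) :
    ‖(fun w : InfinitePlace K => w a)‖ = ‖mixedEmbedding K a‖ := by
  rw [mixedEmbedding.norm_eq_sup'_normAtPlace]
  simp only [mixedEmbedding.normAtPlace_apply]
  apply le_antisymm
  · rw [pi_norm_le_iff_of_nonneg]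
    · intro w
      rw [Real.norm_of_nonneg (apply_nonneg _ _)]
      exact Finset.le_sup' (fun w : InfinitePlace K => w a) (Finset.mem_univ w)
    · obtain ⟨w⟩ := (inferInstance : Nonempty (InfinitePlace K))
      exact le_trans (apply_nonneg w a) (Finset.le_sup' (fun w : InfinitePlace K => w a) (Finset.mem_univ w))
  · apply Finset.sup'_le
    intro w _
    calc w a = ‖(fun w : InfinitePlace K => w a) w‖ := by rw [Real.norm_of_nonneg (apply_nonneg _ _)]
      _ ≤ _ := norm_le_pi_norm (fun w : InfinitePlace K => w a) w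

open scoped Classical in
theorem summable_norm_rpow {r : ℝ} (hr : r < -(Module.finrank ℚ K : ℝ)) :
    Summable fun a : 𝓞 K => ‖(fun w : InfinitePlace K => w (a : K))‖ ^ r := by
  have h1 : Module.finrank ℤ (mixedEmbedding.integerLattice K) = Module.finrank ℚ K := by
    rw [ZLattice.rank ℝ, mixedEmbedding.finrank]
  have h2 := ZLattice.summable_norm_rpow (mixedEmbedding.integerLattice K) r (by rw [h1]; exact hr)
  let φ : 𝓞 K → mixedEmbedding.integerLattice K := fun a => ⟨mixedEmbedding K (a : K), ⟨a, rfl⟩⟩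
  have hφ : Function.Injective φ := by
    intro a b hab
    have := congrArg Subtype.val hab
    exact RingOfIntegers.ext ((mixedEmbedding_injective K) this)
  have h3 := h2.comp_injective hφ
  refine h3.congr fun a => ?_
  simp only [Function.comp, φ, norm_vec_eq]
  rfl

theorem summable_gK {s : ℝ} (hs : 1 < s) (hs2 : s ≤ 2) : Summable (gK K s) := by
  obtain ⟨L, M, h⟩ := isWeight_HK K
  obtain ⟨C, hC, hle⟩ := Gfun_le (fun w : InfinitePlace K => mult_pos) h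
  have hn : (0 : ℝ) < (Module.finrank ℚ K : ℝ) := by exact_mod_cast Module.finrank_pos
  have hr : -(Module.finrank ℚ K : ℝ) * s < -(Module.finrank ℚ K : ℝ) := by nlinarith
  refine Summable.of_nonneg_of_le (gK_nonneg K s) (fun a => ?_) ((summable_norm_rpow K hr).mul_left C)
  have := hle s hs.le hs2 (fun w => w (a : K)) (fun w => apply_nonneg _ _)
  rwa [InfinitePlace.sum_mult_eq] at this

theorem gK_zero {s : ℝ} (hs : 0 < s) : gK K s 0 = 0 := by
  rw [gK_eq]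
  have : Ideal.span {(0 : 𝓞 K)} = ⊥ := by simp
  rw [this, Ideal.absNorm_bot, Nat.cast_zero, Real.zero_rpow (by linarith), zero_mul]

/-- UNFOLDING -/
theorem unfold_classZeta (J : (Ideal (𝓞 K))⁰) (C : ClassGroup (𝓞 K)) (hJ : ClassGroup.mk0 J = C⁻¹)
    {s : ℝ} (hs : 1 < s) (hs2 : s ≤ 2) :
    (Summable fun I : {I : (Ideal (𝓞 K))⁰ // ClassGroup.mk0 I = C} =>
      (Ideal.absNorm (I.1 : Ideal (𝓞 K)) : ℝ) ^ (-s)) ∧
    ∑' b : (J : Ideal (𝓞 K)), gK K s b =
      (torsionOrder K : ℝ) * (Ideal.absNorm (J : Ideal (𝓞 K)) : ℝ) ^ (-s) * classZeta K C s := by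
  classical
  -- generators
  have hprin : ∀ I : {I : (Ideal (𝓞 K))⁰ // ClassGroup.mk0 I = C},
      ∃ a : 𝓞 K, Ideal.span {a} = (J : Ideal (𝓞 K)) * (I.1 : Ideal (𝓞 K)) := by
    intro I
    have h1 : ClassGroup.mk0 (J * I.1) = 1 := by rw [map_mul, hJ, I.2, inv_mul_cancel]
    have h2 := (ClassGroup.mk0_eq_one_iff (J * I.1).2).mp h1
    obtain ⟨a, ha⟩ := h2.principal
    exact ⟨a, by rw [← Ideal.submodule_span_eq, ← ha]; rfl⟩
  choose gen hgen using hprin
  have hJ0 : (J : Ideal (𝓞 K)) ≠ ⊥ := nonZeroDivisors.coe_ne_zero J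
  have hgen0 : ∀ I, gen I ≠ 0 := by
    intro I h0
    have := hgen I
    rw [h0] at this
    have h3 : (J : Ideal (𝓞 K)) * (I.1 : Ideal (𝓞 K)) = ⊥ := by rw [← this]; simp
    rcases mul_eq_zero.mp h3 with h | h
    · exact hJ0 h
    · exact nonZeroDivisors.coe_ne_zero I.1 h
  have hgenJ : ∀ (I) (u : (𝓞 K)ˣ), (u : 𝓞 K) * gen I ∈ (J : Ideal (𝓞 K)) := by
    intro I u
    apply Ideal.mul_mem_left
    have : gen I ∈ Ideal.span {gen I} := Ideal.mem_span_singleton_self _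
    rw [hgen I] at this
    exact Ideal.mul_le_left this
  let Ψ : {I : (Ideal (𝓞 K))⁰ // ClassGroup.mk0 I = C} × (𝓞 K)ˣ → (J : Ideal (𝓞 K)) :=
    fun x => ⟨(x.2 : 𝓞 K) * gen x.1, hgenJ x.1 x.2⟩
  have hspan : ∀ (I) (u : (𝓞 K)ˣ), Ideal.span {(u : 𝓞 K) * gen I} =
      (J : Ideal (𝓞 K)) * (I.1 : Ideal (𝓞 K)) := by
    intro I u
    rw [← hgen I, Ideal.span_singleton_mul_left_unit u.isUnit]
  have hΨinj : Function.Injective Ψ := by
    rintro ⟨I, u⟩ ⟨I', u'⟩ h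
    have h1 : (u : 𝓞 K) * gen I = (u' : 𝓞 K) * gen I' := congrArg Subtype.val h
    have h2 : (J : Ideal (𝓞 K)) * (I.1 : Ideal (𝓞 K)) = (J : Ideal (𝓞 K)) * (I'.1 : Ideal (𝓞 K)) := by
      rw [← hspan I u, ← hspan I' u', h1]
    have h3 : (I.1 : Ideal (𝓞 K)) = (I'.1 : Ideal (𝓞 K)) := mul_left_cancel₀ hJ0 h2
    have h4 : I = I' := Subtype.ext (Subtype.ext h3)
    subst h4
    have h5 : (u : 𝓞 K) = u' := mul_right_cancel₀ (hgen0 I) h1
    rw [Units.ext h5]
  have hΨrange : ∀ b : (J : Ideal (𝓞 K)), b ∉ Set.range Ψ → gK K s b = 0 := by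
    intro b hb
    by_cases hb0 : (b : 𝓞 K) = 0
    · rw [hb0]; exact gK_zero K (by linarith)
    exfalso
    apply hb
    -- `span {b} = J * I`
    have h1 : (J : Ideal (𝓞 K)) ∣ Ideal.span {(b : 𝓞 K)} := by
      rw [Ideal.dvd_span_singleton]; exact b.2
    obtain ⟨I, hI⟩ := h1
    have hI0 : I ≠ ⊥ := by
      rintro rfl
      rw [Ideal.mul_bot, Ideal.span_singleton_eq_bot] at hI
      exact hb0 hI
    let I' : (Ideal (𝓞 K))⁰ := ⟨I, mem_nonZeroDivisors_of_ne_zero hI0⟩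
    have hb' : Ideal.span {(b : 𝓞 K)} ∈ (Ideal (𝓞 K))⁰ :=
      mem_nonZeroDivisors_of_ne_zero (by rwa [Ne, Ideal.zero_eq_bot, Ideal.span_singleton_eq_bot])
    have h2 : ClassGroup.mk0 (J * I') = 1 := by
      rw [ClassGroup.mk0_eq_one_iff (J * I').2]
      refine ⟨⟨(b : 𝓞 K), ?_⟩⟩
      change (J : Ideal (𝓞 K)) * I = _
      rw [← hI]
    have h3 : ClassGroup.mk0 I' = C := by
      rw [map_mul, hJ] at h2
      exact (inv_mul_eq_one.mp h2).symm
    have h4 : Ideal.span {(b : 𝓞 K)} = Ideal.span {gen ⟨I', h3⟩} := by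
      rw [hgen, hI]
    rw [Ideal.span_singleton_eq_span_singleton] at h4
    obtain ⟨u, hu⟩ := h4.symm
    exact ⟨(⟨I', h3⟩, u), Subtype.ext (by simp only [Ψ]; rw [mul_comm]; exact hu)⟩
  have hsumJ : Summable fun b : (J : Ideal (𝓞 K)) => gK K s b :=
    (summable_gK K hs hs2).comp_injective Subtype.val_injective
  have hsumΨ : Summable fun x => gK K s (Ψ x) := (hΨinj.summable_iff hΨrange).mpr hsumJ
  have hval : ∀ (I : {I : (Ideal (𝓞 K))⁰ // ClassGroup.mk0 I = C}) (u : (𝓞 K)ˣ),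
      gK K s (Ψ (I, u)) = ((Ideal.absNorm (J : Ideal (𝓞 K)) : ℝ) ^ (-s) *
        (Ideal.absNorm (I.1 : Ideal (𝓞 K)) : ℝ) ^ (-s)) *
        HK K (fun w => Real.log (w (((u : 𝓞 K) : K) * (gen I : K)))) := by
    intro I u
    rw [gK_eq]
    simp only [Ψ]
    rw [hspan, map_mul, Nat.cast_mul, Real.mul_rpow (Nat.cast_nonneg _) (Nat.cast_nonneg _)]
    simp
  have hfib : ∀ I : {I : (Ideal (𝓞 K))⁰ // ClassGroup.mk0 I = C},
      HasSum (fun u : (𝓞 K)ˣ => gK K s (Ψ (I, u)))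
        (((Ideal.absNorm (J : Ideal (𝓞 K)) : ℝ) ^ (-s) *
        (Ideal.absNorm (I.1 : Ideal (𝓞 K)) : ℝ) ^ (-s)) * (torsionOrder K : ℝ)) := by
    intro I
    simp only [hval]
    exact (hasSum_units_HK K (gen I : K) (by simpa using hgen0 I)).mul_left _
  have hJpos : (0 : ℝ) < (Ideal.absNorm (J : Ideal (𝓞 K)) : ℝ) ^ (-s) := by
    apply Real.rpow_pos_of_pos
    exact_mod_cast Nat.pos_of_ne_zero (by rw [Ne, Ideal.absNorm_eq_zero_iff]; exact hJ0)
  have hμ : (0 : ℝ) < (torsionOrder K : ℝ) := by exact_mod_cast torsionOrder_pos K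
  have hs1 : Summable fun I : {I : (Ideal (𝓞 K))⁰ // ClassGroup.mk0 I = C} =>
      ((Ideal.absNorm (J : Ideal (𝓞 K)) : ℝ) ^ (-s) *
        (Ideal.absNorm (I.1 : Ideal (𝓞 K)) : ℝ) ^ (-s)) * (torsionOrder K : ℝ) := by
    have := hsumΨ.prod
    refine this.congr fun I => ?_
    exact (hfib I).tsum_eq
  have hs2' : Summable fun I : {I : (Ideal (𝓞 K))⁰ // ClassGroup.mk0 I = C} =>
      (Ideal.absNorm (I.1 : Ideal (𝓞 K)) : ℝ) ^ (-s) := by
    have := (hs1.mul_right ((torsionOrder K : ℝ))⁻¹).mul_left ((Ideal.absNorm (J : Ideal (𝓞 K)) : ℝ) ^ (-s))⁻¹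
    refine this.congr fun I => ?_
    field_simp
  refine ⟨hs2', ?_⟩
  rw [← hΨinj.tsum_eq (f := fun b : (J : Ideal (𝓞 K)) => gK K s b)
    (by intro b hb; by_contra hc; exact hb (hΨrange b hc))]
  rw [hsumΨ.tsum_prod]
  simp only [fun I => (hfib I).tsum_eq]
  rw [tsum_mul_right, tsum_mul_left, classZeta]
  ring

end Fermat.Agent.S14.CZ
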