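import Fermat.Agent.S14.CZ.Tent
import Fermat.Agent.S14.CZ.Estimate

set_option autoImplicit false

open NumberField NumberField.InfinitePlace NumberField.Units NumberField.Units.dirichletUnitTheorem

namespace Fermat.Agent.S14.CZ

variable (K : Type*) [Field K] [NumberField K]

/-- `l ↦ (mult w * (l w - (∑ mult v * l v) / n))_{w ≠ w₀}` -/
noncomputable def projLog : (InfinitePlace K → ℝ) →ₗ[ℝ] logSpace K where
  toFun l := fun w => (mult w.1 : ℝ) * (l w.1 - (∑ v, (mult v : ℝ) * l v) / (∑ v : InfinitePlace K, (mult v : ℝ)))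
  map_add' l l' := by
    ext w
    simp only [Pi.add_apply, mul_add, Finset.sum_add_distrib, add_div]
    ring
  map_smul' c l := by
    ext w
    simp only [Pi.smul_apply, smul_eq_mul, RingHom.id_apply]
    have : ∑ v, (mult v : ℝ) * (c * l v) = c * ∑ v, (mult v : ℝ) * l v := by
      rw [Finset.mul_sum]; exact Finset.sum_congr rfl fun v _ => by ring
    rw [this]; ring

open scoped Classical in
/-- the real basis of `logSpace K` given by the fundamental units -/
noncomputable def logBasis : Module.Basis (Fin (rank K)) ℝ (logSpace K) :=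
  (basisUnitLattice K).ofZLatticeBasis ℝ (unitLattice K)

theorem logBasis_apply (i : Fin (rank K)) :
    logBasis K i = (basisUnitLattice K i : logSpace K) := by
  simp [logBasis]

theorem logBasis_repr (x : unitLattice K) (i : Fin (rank K)) :
    (logBasis K).repr (x : logSpace K) i = (basisUnitLattice K).repr x i := by
  simp [logBasis]

/-- the weight -/
noncomputable def HK (l : InfinitePlace K → ℝ) : ℝ :=
  ∏ j, tent ((logBasis K).repr (projLog K l) j)

private theorem sum_mult_pos : 0 < ∑ v : InfinitePlace K, (mult v : ℝ) :=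
  Finset.sum_pos (fun v _ => by exact_mod_cast mult_pos) Finset.univ_nonempty

omit [NumberField K] in
private theorem one_le_mult (w : InfinitePlace K) : (1 : ℝ) ≤ (mult w : ℝ) := by
  exact_mod_cast (mult_pos : 0 < mult w)

/-- the `j`-th coordinate of `projLog`, as a linear functional -/
private noncomputable def coordFun (j : Fin (rank K)) : (InfinitePlace K → ℝ) →ₗ[ℝ] ℝ :=
  ((logBasis K).coord j).comp (projLog K)

private theorem coordFun_apply (j : Fin (rank K)) (l : InfinitePlace K → ℝ) :
    coordFun K j l = (logBasis K).repr (projLog K l) j := rfl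

private theorem projLog_apply (l : InfinitePlace K → ℝ) (w : {w : InfinitePlace K // w ≠ w₀}) :
    projLog K l w = (mult w.1 : ℝ) *
      (l w.1 - (∑ v, (mult v : ℝ) * l v) / (∑ v : InfinitePlace K, (mult v : ℝ))) := rfl

open scoped Classical in
private theorem norm_projLog_le {l : InfinitePlace K → ℝ}
    (h : ∀ j, |(logBasis K).repr (projLog K l) j| < 1) :
    ‖projLog K l‖ ≤ ∑ j, ‖logBasis K j‖ := by
  conv_lhs => rw [← (logBasis K).sum_repr (projLog K l)]
  refine (norm_sum_le _ _).trans (Finset.sum_le_sum fun j _ => ?_)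
  rw [norm_smul, Real.norm_eq_abs]
  exact mul_le_of_le_one_left (norm_nonneg _) (h j).le

open scoped Classical in
private theorem sum_mult_mul_sub (l : InfinitePlace K → ℝ) :
    (mult (w₀ : InfinitePlace K) : ℝ) *
        (l w₀ - (∑ v, (mult v : ℝ) * l v) / (∑ v : InfinitePlace K, (mult v : ℝ))) =
      - ∑ w : {w : InfinitePlace K // w ≠ w₀}, projLog K l w := by
  have hn := (sum_mult_pos K).ne'
  have h : ∑ w : InfinitePlace K, (mult w : ℝ) *
      (l w - (∑ v, (mult v : ℝ) * l v) / (∑ v : InfinitePlace K, (mult v : ℝ))) = 0 := by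
    simp only [mul_sub, Finset.sum_sub_distrib, ← Finset.sum_mul]
    field_simp
    ring
  rw [Fintype.sum_eq_add_sum_subtype_ne _ w₀] at h
  simp only [projLog_apply]
  linarith

theorem isWeight_HK : ∃ L M : ℝ, IsWeight (fun w : InfinitePlace K => mult w) (HK K) L M := by
  classical
  set B : ℝ := ∑ j, ‖logBasis K j‖ with hB
  have hB0 : 0 ≤ B := Finset.sum_nonneg fun j _ => norm_nonneg _
  refine ⟨∑ j, ‖LinearMap.toContinuousLinearMap (coordFun K j)‖,
    (Fintype.card {w : InfinitePlace K // w ≠ w₀} : ℝ) * B + B, ?_, ?_, ?_, ?_⟩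
  · exact fun l => Finset.prod_nonneg fun j _ => tent_nonneg _
  · exact fun l => Finset.prod_le_one (fun j _ => tent_nonneg _) (fun j _ => tent_le_one _)
  · intro l l'
    refine (abs_prod_sub_prod_le _ _ (fun j => ⟨tent_nonneg _, tent_le_one _⟩)
      (fun j => ⟨tent_nonneg _, tent_le_one _⟩)).trans ?_
    rw [Finset.sum_mul]
    refine Finset.sum_le_sum fun j _ => (abs_tent_sub_le _ _).trans ?_
    have h := (LinearMap.toContinuousLinearMap (coordFun K j)).le_opNorm (l - l')
    rw [LinearMap.coe_toContinuousLinearMap', map_sub, Real.norm_eq_abs, coordFun_apply,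
      coordFun_apply] at h
    exact h
  · intro l hl w
    have hj : ∀ j, |(logBasis K).repr (projLog K l) j| < 1 := fun j =>
      abs_lt_one_of_tent_ne_zero fun h0 => hl (Finset.prod_eq_zero (Finset.mem_univ j) h0)
    have hn := norm_projLog_le K hj
    have hcomp : ∀ w : {w : InfinitePlace K // w ≠ w₀}, |projLog K l w| ≤ B := fun w =>
      (norm_le_pi_norm (projLog K l) w).trans hn
    have hcard : 0 ≤ (Fintype.card {w : InfinitePlace K // w ≠ w₀} : ℝ) * B :=
      mul_nonneg (Nat.cast_nonneg _) hB0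
    set x : ℝ := l w - (∑ v, (mult v : ℝ) * l v) / (∑ v : InfinitePlace K, (mult v : ℝ)) with hx
    change |x| ≤ _
    have hle : |x| ≤ |(mult w : ℝ) * x| := by
      rw [abs_mul, abs_of_pos (by exact_mod_cast mult_pos : (0 : ℝ) < mult w)]
      exact le_mul_of_one_le_left (abs_nonneg _) (one_le_mult K w)
    refine hle.trans ?_
    by_cases hw : w = w₀
    · subst hw
      rw [hx, sum_mult_mul_sub, abs_neg]
      refine (Finset.abs_sum_le_sum_abs _ _).trans ?_
      refine (Finset.sum_le_sum fun w _ => hcomp w).trans ?_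
      rw [Finset.sum_const, Finset.card_univ, nsmul_eq_mul]
      linarith
    · have := hcomp ⟨w, hw⟩
      rw [projLog_apply] at this
      linarith

private theorem projLog_unit (u : (𝓞 K)ˣ) :
    projLog K (fun w => Real.log (w ((u : 𝓞 K) : K))) = logEmbedding K (Additive.ofMul u) := by
  ext w
  rw [projLog_apply, logEmbedding_component, sum_mult_mul_log, zero_div, sub_zero]

private theorem projLog_unit_mul (u : (𝓞 K)ˣ) {a : K} (ha : a ≠ 0) :
    projLog K (fun w => Real.log (w (((u : 𝓞 K) : K) * a))) =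
      logEmbedding K (Additive.ofMul u) + projLog K (fun w => Real.log (w a)) := by
  rw [← projLog_unit, ← map_add]
  congr 1
  ext w
  rw [Pi.add_apply, map_mul, Real.log_mul (Units.pos_at_place u w).ne'
    ((map_ne_zero w).mpr ha)]

/-- the parametrisation of the unit group given by the Dirichlet unit theorem -/
private noncomputable def unitsEquiv : torsion K × (Fin (rank K) → ℤ) ≃ (𝓞 K)ˣ :=
  Equiv.ofBijective (fun ζe => (ζe.1 : (𝓞 K)ˣ) * ∏ i, (fundSystem K i) ^ (ζe.2 i)) (by
    constructor
    · intro x y hxy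
      obtain ⟨z, -, hz⟩ := exist_unique_eq_mul_prod K
        ((x.1 : (𝓞 K)ˣ) * ∏ i, (fundSystem K i) ^ (x.2 i))
      exact (hz x rfl).trans (hz y hxy).symm
    · intro x
      obtain ⟨z, hz, -⟩ := exist_unique_eq_mul_prod K x
      exact ⟨z, hz.symm⟩)

private theorem unitsEquiv_apply (ζe : torsion K × (Fin (rank K) → ℤ)) :
    unitsEquiv K ζe = (ζe.1 : (𝓞 K)ˣ) * ∏ i, (fundSystem K i) ^ (ζe.2 i) := rfl

private theorem logEmbedding_unitsEquiv (ζe : torsion K × (Fin (rank K) → ℤ)) :
    logEmbedding K (Additive.ofMul (unitsEquiv K ζe)) =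
      ∑ i, ((ζe.2 i : ℤ) : ℝ) • logBasis K i := by
  rw [unitsEquiv_apply, ofMul_mul, map_add, logEmbedding_eq_zero_iff.mpr ζe.1.2, zero_add,
    ofMul_prod, map_sum]
  refine Finset.sum_congr rfl fun i _ => ?_
  rw [ofMul_zpow, map_zsmul, logEmbedding_fundSystem, logBasis_apply, Int.cast_smul_eq_zsmul]

private theorem HK_unitsEquiv (ζe : torsion K × (Fin (rank K) → ℤ)) {a : K} (ha : a ≠ 0) :
    HK K (fun w => Real.log (w (((unitsEquiv K ζe : 𝓞 K) : K) * a))) =
      ∏ j, tent ((logBasis K).repr (projLog K (fun w => Real.log (w a))) j + (ζe.2 j : ℤ)) := by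
  unfold HK
  refine Finset.prod_congr rfl fun j _ => ?_
  rw [projLog_unit_mul K _ ha, logEmbedding_unitsEquiv, map_add, Finsupp.add_apply,
    (logBasis K).repr_sum_self, add_comm]

/-- unfolding the unit group -/
theorem hasSum_units_HK (a : K) (ha : a ≠ 0) :
    HasSum (fun u : (𝓞 K)ˣ => HK K (fun w => Real.log (w (((u : 𝓞 K) : K) * a))))
      (torsionOrder K : ℝ) := by
  have : Fintype (torsion K) := Fintype.ofFinite _
  rw [← (unitsEquiv K).hasSum_iff]
  set t : Fin (rank K) → ℝ := fun j => (logBasis K).repr (projLog K (fun w => Real.log (w a))) j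
    with ht
  have hfun : ((fun u : (𝓞 K)ˣ => HK K (fun w => Real.log (w (((u : 𝓞 K) : K) * a)))) ∘
      unitsEquiv K) = fun ζe : torsion K × (Fin (rank K) → ℤ) =>
        ∏ j, tent (t j + (ζe.2 j : ℤ)) := by
    funext ζe
    exact HK_unitsEquiv K ζe ha
  rw [hfun]
  have h1 : ∀ ζ : torsion K, HasSum (fun e : Fin (rank K) → ℤ =>
      (fun ζe : torsion K × (Fin (rank K) → ℤ) => ∏ j, tent (t j + (ζe.2 j : ℤ))) (ζ, e)) 1 :=
    fun ζ => hasSum_prod_tent t
  have hsummable : Summable (fun ζe : torsion K × (Fin (rank K) → ℤ) =>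
      ∏ j, tent (t j + (ζe.2 j : ℤ))) := by
    rw [summable_prod_of_nonneg (fun ζe => Finset.prod_nonneg fun j _ => tent_nonneg _)]
    exact ⟨fun ζ => (h1 ζ).summable, (hasSum_fintype _).summable⟩
  have h2 := hsummable.hasSum.prod_fiberwise h1
  have h3 : HasSum (fun _ : torsion K => (1 : ℝ)) (torsionOrder K : ℝ) := by
    have := hasSum_fintype (fun _ : torsion K => (1 : ℝ))
    simpa [torsionOrder, Nat.card_eq_fintype_card] using this
  rw [← h2.unique h3]
  exact hsummable.hasSum

end Fermat.Agent.S14.CZ
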